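import Fermat.Agent.S59.LoSqC.H305.SlopeFricke
import Fermat.Agent.S36.H586.G1Table

/-!
# S59 moonshot, cell (C) LO-SQ, leaf W-SLOPE — part 3: the slope relation at level `E`
# (helper305, OFF-MAIN)

`V∞` the Gauss valuation ring of `F_E(N)` (a DVR with uniformiser `w`), `V₀ = V∞ ∘ W`.
For `y ∈ F_E(N)ˣ` with orders `a₁` (along `V∞`) and `a₃` (along `V₀`):

* `slope_core305` : if `T_ℓ y = c · y ^ a · h ^ m` (`c ∈ Eˣ`, `h ∈ F_E(N)ˣ`), then
      `m ∣ ((ℓ + 1) - a) · (a₁ - a₃)`.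

(The slope `a₁ - a₃` is multiplied by `ℓ + 1` by `T_ℓ`; constants have slope `0`, `m`-th powers
have slope `≡ 0 mod m`.)
-/

set_option autoImplicit false
set_option linter.style.haveILetI false
set_option linter.unusedSectionVars false
set_option synthInstance.maxHeartbeats 400000
set_option maxHeartbeats 1600000

noncomputable section

namespace Fermat.Agent.S59.LoSqC.H305

open ModularCurve AlgebraicCurve HahnSeries
open Fermat.Agent.A2.Mod
open Fermat.Agent.S36.Eng (UnitAt UnifAt)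
open Fermat.Agent.S36.H586 (IsOrd)

variable (E : IntermediateField ℚ Qb) (N ℓ : ℕ) [NeZero N] [NeZero ℓ]

/-- Orders along `V.comap W` are orders of `W z` along `V` (`W` fixes the uniformiser). -/
theorem isOrd_comap305 {V : ValuationSubring (FE E N)} (W : FE E N ≃ₐ[E] FE E N) {w : E}
    (hw0 : algebraMap E (FE E N) w ≠ 0) (z : FE E N) (b : ℤ) :
    IsOrd (V.comap (W : FE E N →+* FE E N)) (algebraMap E (FE E N) w) z b ↔
      IsOrd V (algebraMap E (FE E N) w) (W z) b := by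
  rw [Fermat.Agent.S36.H586.isOrd_iff_unitAt hw0, Fermat.Agent.S36.H586.isOrd_iff_unitAt hw0,
    unitAt_comap305, map_mul, map_inv₀, map_zpow₀, AlgEquiv.commutes]

variable (P : ValuationSubring Qb)

/-- **The slope relation at level `E`.** -/
theorem slope_core305 {q : ℕ} (hq : q.Prime) (hP : P.LiesOverPrime q)
    (hℓ : ℓ.Prime) (hℓq : ℓ ≠ q) (hℓN : ¬ ℓ ∣ N)
    {V : ValuationSubring (FE E N)} (hV : IsVinf P E N V) (hdvr : IsDiscreteValuationRing V)
    {W : FE E N ≃ₐ[E] FE E N} (hW : IsFricke E N W)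
    (w : E) (hw : UnifAt V (algebraMap E (FE E N) w))
    (y : FE E N) (a₁ a₃ : ℤ)
    (h₁ : IsOrd V (algebraMap E (FE E N) w) y a₁)
    (h₃ : IsOrd (V.comap (W : FE E N →+* FE E N)) (algebraMap E (FE E N) w) y a₃)
    (a : ℤ) (m : ℕ) (c : E) (h : FE E N) (hc : c ≠ 0) (hh : h ≠ 0)
    (he : heckeNormE E N ℓ y = algebraMap E (FE E N) c * y ^ a * h ^ m) :
    (m : ℤ) ∣ (((ℓ : ℤ) + 1) - a) * (a₁ - a₃) := by
  haveI := hdvr
  have hw0 : algebraMap E (FE E N) w ≠ 0 := hw.1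
  have hwlt : V.valuation (algebraMap E (FE E N) w) < 1 :=
    Fermat.Agent.S36.H586.UnifAt.val_lt_one hw
  have hc0 : algebraMap E (FE E N) c ≠ 0 := by simpa using hc
  -- orders of `c`, `h`, `W h` along `V`
  obtain ⟨e, hce⟩ := Fermat.Agent.S36.H586.exists_isOrd_of_unifAt V hw _ hc0
  obtain ⟨b₁, hb₁⟩ := Fermat.Agent.S36.H586.exists_isOrd_of_unifAt V hw h hh
  obtain ⟨b₃, hb₃⟩ := Fermat.Agent.S36.H586.exists_isOrd_of_unifAt V hw (W h)
    ((map_ne_zero_iff _ W.injective).2 hh)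
  -- along `V`
  have k1 : IsOrd V (algebraMap E (FE E N) w) (heckeNormE E N ℓ y) (((ℓ : ℤ) + 1) * a₁) := by
    rw [Fermat.Agent.S36.H586.isOrd_iff_unitAt hw0] at h₁ ⊢
    exact heckeNormE_order305 E N ℓ P hq hP hℓ hℓq hℓN hV w y a₁ h₁
  have k1' : IsOrd V (algebraMap E (FE E N) w) (heckeNormE E N ℓ y)
      (e + a * a₁ + (m : ℤ) * b₁) := by
    rw [he]
    exact ((hce.mul hw0 (h₁.zpow a)).mul hw0 (hb₁.pow m))
  have e1 := Fermat.Agent.S36.H586.IsOrd.unique hw0 hwlt k1 k1'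
  -- along `V₀`
  have h₃' : IsOrd V (algebraMap E (FE E N) w) (W y) a₃ :=
    (isOrd_comap305 E N W hw0 y a₃).1 h₃
  have k3 : IsOrd V (algebraMap E (FE E N) w) (heckeNormE E N ℓ (W y))
      (((ℓ : ℤ) + 1) * a₃) := by
    rw [Fermat.Agent.S36.H586.isOrd_iff_unitAt hw0] at h₃' ⊢
    exact heckeNormE_order305 E N ℓ P hq hP hℓ hℓq hℓN hV w (W y) a₃ h₃'
  have heW : heckeNormE E N ℓ (W y) = algebraMap E (FE E N) c * (W y) ^ a * (W h) ^ m := by
    rw [← fricke_heckeNormE305 E N ℓ hℓ hℓN hW, he, map_mul, map_mul, map_zpow₀, map_pow,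
      AlgEquiv.commutes]
  have k3' : IsOrd V (algebraMap E (FE E N) w) (heckeNormE E N ℓ (W y))
      (e + a * a₃ + (m : ℤ) * b₃) := by
    rw [heW]
    exact ((hce.mul hw0 (h₃'.zpow a)).mul hw0 (hb₃.pow m))
  have e3 := Fermat.Agent.S36.H586.IsOrd.unique hw0 hwlt k3 k3'
  refine ⟨b₁ - b₃, ?_⟩
  linear_combination e1 - e3

end Fermat.Agent.S59.LoSqC.H305

end
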