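import Fermat.Agent.S59.LoSqC.H305.SlopeKron
import Fermat.Agent.Ribet.H376.HeckeFricke
import Fermat.Agent.A2.Mod.H553.Fricke

/-!
# S59 moonshot, cell (C) LO-SQ, leaf W-SLOPE — part 2: the Fricke involution and the valuation
# `V₀ = V∞ ∘ W`  (helper305, OFF-MAIN)

* `fricke_heckeNormE305` : `W (T_ℓ y) = T_ℓ (W y)` for every Fricke involution `W` of level `E`
                           (`H376.wF_heckeNorm` over `ℚ̄` + `Mod.H553.iota_wE`);
* `heckeNormE_order_zero305` : orders along `V₀ = V∞.comap W` are multiplied by `ℓ + 1`.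
-/

set_option autoImplicit false
set_option linter.style.haveILetI false
set_option linter.unusedSectionVars false
set_option synthInstance.maxHeartbeats 400000
set_option maxHeartbeats 1600000

noncomputable section

namespace Fermat.Agent.S59.LoSqC.H305

open ModularCurve AlgebraicCurve HahnSeries
open Fermat.Agent.A2.Mod
open Fermat.Agent.A2.T1.H669 (iota)
open Fermat.Agent.S36.Eng (UnitAt)

variable (E : IntermediateField ℚ Qb) (N ℓ : ℕ) [NeZero N] [NeZero ℓ]

/-- Every Fricke involution of level `E` induces `H528.wF` over `ℚ̄`. -/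
theorem iota_fricke305 {W : FE E N ≃ₐ[E] FE E N} (hW : IsFricke E N W) (z : FE E N) :
    iota E (modularFunctionFieldFull N) (W z) =
      Fermat.Agent.A2.H528.wF N (iota E (modularFunctionFieldFull N) z) := by
  rw [Fermat.Agent.A2.Mod.H553.isFricke_unique E (NeZero.ne N) hW
    (Fermat.Agent.A2.Mod.H553.isFricke_wE E N)]
  exact Fermat.Agent.A2.Mod.H553.iota_wE E N z

/-- **The Fricke involution commutes with the Hecke norm** (level `E`). -/
theorem fricke_heckeNormE305 (hℓ : ℓ.Prime) (hℓN : ¬ ℓ ∣ N) {W : FE E N ≃ₐ[E] FE E N}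
    (hW : IsFricke E N W) (y : FE E N) :
    W (heckeNormE E N ℓ y) = heckeNormE E N ℓ (W y) := by
  apply Fermat.Agent.A2.T1.H669.iota_injective E (modularFunctionFieldFull N)
  rw [iota_fricke305 E N hW, iota_heckeNormE305, iota_heckeNormE305, iota_fricke305 E N hW,
    Fermat.Agent.Ribet.H376.wF_heckeNorm hℓ hℓN]

variable (P : ValuationSubring Qb)

theorem unitAt_comap305 {V : ValuationSubring (FE E N)} (W : FE E N ≃ₐ[E] FE E N) (z : FE E N) :
    UnitAt (V.comap (W : FE E N →+* FE E N)) z ↔ UnitAt V (W z) := by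
  unfold UnitAt
  rw [ValuationSubring.mem_comap, ValuationSubring.mem_comap]
  constructor
  · rintro ⟨h0, h1, h2⟩
    refine ⟨(map_ne_zero_iff _ W.injective).2 h0, h1, ?_⟩
    have : W z⁻¹ = (W z)⁻¹ := map_inv₀ W z
    rw [← this]
    exact h2
  · rintro ⟨h0, h1, h2⟩
    refine ⟨(map_ne_zero_iff _ W.injective).1 h0, h1, ?_⟩
    have : W z⁻¹ = (W z)⁻¹ := map_inv₀ W z
    show W z⁻¹ ∈ V
    rw [this]
    exact h2

/-- **Orders along `V₀ = V∞ ∘ W` are multiplied by `ℓ + 1`.** -/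
theorem heckeNormE_order_zero305 {q : ℕ} (hq : q.Prime) (hP : P.LiesOverPrime q)
    (hℓ : ℓ.Prime) (hℓq : ℓ ≠ q) (hℓN : ¬ ℓ ∣ N)
    {V : ValuationSubring (FE E N)} (hV : IsVinf P E N V)
    {W : FE E N ≃ₐ[E] FE E N} (hW : IsFricke E N W) (w : E) (y : FE E N) (a : ℤ)
    (hy : UnitAt (V.comap (W : FE E N →+* FE E N)) (y * (algebraMap E (FE E N) w ^ a)⁻¹)) :
    UnitAt (V.comap (W : FE E N →+* FE E N))
      (heckeNormE E N ℓ y * (algebraMap E (FE E N) w ^ (((ℓ : ℤ) + 1) * a))⁻¹) := by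
  rw [unitAt_comap305] at hy ⊢
  rw [map_mul, map_inv₀, map_zpow₀, AlgEquiv.commutes] at hy ⊢
  rw [fricke_heckeNormE305 E N ℓ hℓ hℓN hW]
  exact heckeNormE_order305 E N ℓ P hq hP hℓ hℓq hℓN hV w (W y) a hy

end Fermat.Agent.S59.LoSqC.H305

end
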