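import Fermat.Agent.S59.LoSqC.H305.SlopeCore
import Fermat.Agent.Ribet.H398.HeckeFun
import Fermat.Agent.Ribet.H944.WallSpec
import Fermat.Agent.S36.H756.WireAbs
import Fermat.Agent.S35.H909.QNewOfKummer

/-!
# S59 moonshot, cell (C) LO-SQ, leaf **W-SLOPE** — part 4: the `J`-form  (helper305, OFF-MAIN)

`G ≤ Gal(ℚ̄/ℚ)` a subgroup, `E = ℚ̄^G` (for (C): `G = I_P`, `E` the inertia field), `P` a place of
`ℚ̄` over `q`, `N` ANY level, `V∞` the Gauss valuation ring of `F_E(N)` (a DVR with uniformiser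
`w`), `V₀ = V∞ ∘ W` (`W` the Fricke involution).  In the notation of `S36/Mod3/Spec.lean`
(`Objs`): `V∞ = V₁`, `V₀ = V₃` at level `N = M q q`.

* `kummer_hecke_E305` : if `ι y` is a Kummer generator (exponent `m`) of a class `x` with
  `T_ℓ x = a • x`, then `T_ℓ y = c · y ^ a · h ^ m` with `c ∈ Eˣ`, `h ∈ F_E(N)ˣ`
  (HECKE-FUN `H398` + `S35.H909.exists_pow_eq_of_ord` + descent `H756.descend_const_mul_pow`);
* **`slope_zero305`** (W-SLOPE): `x` a Hecke eigenclass for a NON-EISENSTEIN system `a` modulo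
  `p`, `ι y` a Kummer generator of `x` of exponent `p ^ n`, `a₁`, `a₃` the orders of `y` along
  `V∞`, `V₀`.  Then `p ^ n ∣ a₁ - a₃`.
-/

set_option autoImplicit false
set_option linter.style.haveILetI false
set_option linter.unusedSectionVars false
set_option synthInstance.maxHeartbeats 400000
set_option maxHeartbeats 1600000

noncomputable section

namespace Fermat.Agent.S59.LoSqC.H305

open ModularCurve AlgebraicCurve HahnSeries
open Fermat.Agent.A2.Mod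
open Fermat.Agent.A2.T1.H669 (iota)
open Fermat.Agent.S36.Eng (UnitAt UnifAt)
open Fermat.Agent.S36.H586 (IsOrd)
open Fermat.Agent.Ribet.H884 (IsKummerGen)
open Fermat.Agent.Ribet.H944.Wall (EigenAt NonEisAway)

variable (G : Subgroup (Qb ≃ₐ[ℚ] Qb)) (N : ℕ) [NeZero N]

/-- `ι (T_ℓ y)` is a Kummer generator of `T_ℓ x` if `ι y` is a Kummer generator of `x`. -/
theorem isKummerGen_heckeNormE305 (E : IntermediateField ℚ Qb) (ℓ : Nat.Primes)
    [NeZero (ℓ : ℕ)] (hℓN : ¬ (ℓ : ℕ) ∣ N) (m : ℕ) (y : FE E N) (x : JZero N)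
    (hK : IsKummerGen N m (iota E (modularFunctionFieldFull N) y) x) :
    IsKummerGen N m (iota E (modularFunctionFieldFull N) (heckeNormE E N ℓ y))
      (heckeOperatorBar N ℓ x) := by
  obtain ⟨g, hg, hgK⟩ := Fermat.Agent.Ribet.H398.heckeFun N ℓ hℓN
    (iota E (modularFunctionFieldFull N) y)
  have e : iota E (modularFunctionFieldFull N) (heckeNormE E N ℓ y) = g := by
    apply Subtype.ext
    rw [hg]
    show coeffMap (algebraMap E Qb) ((heckeNormE E N ℓ y : FE E N) : LaurentSeries E) = _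
    rw [coe_heckeNormE305 E N ℓ ℓ.2 hℓN, Fermat.Agent.S37.H400.coeffMap_kronNorm]
    rfl
  rw [e]
  exact hgK m x hK

local notation "EG" => IntermediateField.fixedField G
local notation "ιG" => iota (IntermediateField.fixedField G) (modularFunctionFieldFull N)

/-- **Hecke eigen-relation for Kummer generators over `E = ℚ̄^G`.** -/
theorem kummer_hecke_E305 (ℓ : Nat.Primes) [NeZero (ℓ : ℕ)] (hℓN : ¬ (ℓ : ℕ) ∣ N)
    (m : ℕ) (hm : 0 < m) (y : FE EG N) (x : JZero N) (a : ℤ)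
    (hK : IsKummerGen N m (ιG y) x)
    (hT : heckeOperatorBar N ℓ x = a • x) :
    ∃ (c : EG) (h : FE EG N), c ≠ 0 ∧ h ≠ 0 ∧
      heckeNormE EG N ℓ y = algebraMap EG (FE EG N) c * y ^ a * h ^ m := by
  have hK1 := isKummerGen_heckeNormE305 N EG ℓ hℓN m y x hK
  rw [hT] at hK1
  obtain ⟨hy0, D, hD, hordy⟩ := hK
  obtain ⟨hT0, D₁, hD₁, hord1⟩ := hK1
  have hy0' : y ≠ 0 := fun h => hy0 (by rw [h, map_zero])
  -- the divisor `D₁ - a D` is principal
  have h0 : Pic0.mk (D₁ - a • D) = (0 : JZero N) := by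
    have : Pic0.mk (D₁ - a • D) = Pic0.mk D₁ - a • Pic0.mk D := rfl
    rw [this, hD₁, hD, sub_self]
  have hprin := (QuotientAddGroup.eq_zero_iff (D₁ - a • D)).1 h0
  rw [AddSubgroup.mem_addSubgroupOf] at hprin
  obtain ⟨b, hb, hbD⟩ := hprin
  -- the quotient `u = T_ℓ y / y ^ a`
  have hιu : ιG (heckeNormE EG N ℓ y * (y ^ a)⁻¹) =
      ιG (heckeNormE EG N ℓ y) * ((ιG y) ^ a)⁻¹ := by
    rw [map_mul, map_inv₀, map_zpow₀]
  have hιu0 : ιG (heckeNormE EG N ℓ y * (y ^ a)⁻¹) ≠ 0 := by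
    rw [hιu]
    exact mul_ne_zero hT0 (inv_ne_zero (zpow_ne_zero a hy0))
  have hord : ∀ v : Place Qb (modularFunctionFieldBar N),
      v.ord (ιG (heckeNormE EG N ℓ y * (y ^ a)⁻¹)) = (m : ℤ) * v.ord b := by
    intro v
    rw [hιu, v.ord_mul hT0 (inv_ne_zero (zpow_ne_zero a hy0)), v.ord_inv, v.ord_zpow, hord1,
      hordy, ← hbD v]
    simp only [AddSubgroupClass.coe_sub, Finsupp.sub_apply]
    have : ((a • D : Divisor.degZero (K := Qb) (F := modularFunctionFieldBar N)) :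
        Divisor Qb (modularFunctionFieldBar N)) v = a * (D : Divisor Qb _) v := by
      simp [Finsupp.smul_apply]
    rw [this]
    ring
  obtain ⟨b', hb', hub'⟩ := Fermat.Agent.S35.H909.exists_pow_eq_of_ord N m hm hιu0 hb hord
  obtain ⟨c₁, h₁, hc₁, hh₁, he⟩ := Fermat.Agent.S36.H756.descend_const_mul_pow G hm
    (heckeNormE EG N ℓ y * (y ^ a)⁻¹) 1 b'
    one_ne_zero hb' (by rw [map_one, one_mul]; exact hub')
  refine ⟨c₁, h₁, hc₁, hh₁, ?_⟩
  have hya : y ^ a ≠ 0 := zpow_ne_zero a hy0'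
  have : heckeNormE EG N ℓ y = (heckeNormE EG N ℓ y * (y ^ a)⁻¹) * y ^ a := by
    rw [mul_assoc, inv_mul_cancel₀ hya, mul_one]
  rw [this, he]
  ring

/-- **W-SLOPE.**  The slope `a₁ - a₃` of an `E`-rational Kummer generator (exponent `p ^ n`) of a
Hecke eigenclass with NON-EISENSTEIN eigenvalues vanishes modulo `p ^ n`. -/
theorem slope_zero305 (P : ValuationSubring Qb) {q : ℕ} (hq : q.Prime) (hP : P.LiesOverPrime q)
    {p : ℕ} (hp : p.Prime) (n : ℕ)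
    {V : ValuationSubring (FE EG N)} (hV : IsVinf P EG N V) (hdvr : IsDiscreteValuationRing V)
    {W : FE EG N ≃ₐ[EG] FE EG N} (hW : IsFricke EG N W)
    (w : EG) (hw : UnifAt V (algebraMap EG (FE EG N) w))
    (S : Finset ℕ) (a : ℕ → ℤ) (hNE : NonEisAway p a)
    (x : JZero N) (hx : EigenAt N S a x)
    (y : FE EG N) (hK : IsKummerGen N (p ^ n) (ιG y) x)
    (a₁ a₃ : ℤ) (h₁ : IsOrd V (algebraMap EG (FE EG N) w) y a₁)
    (h₃ : IsOrd (V.comap (W : FE EG N →+* FE EG N)) (algebraMap EG (FE EG N) w) y a₃) :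
    ((p ^ n : ℕ) : ℤ) ∣ a₁ - a₃ := by
  obtain ⟨ℓ, hℓ, hℓS, hℓne⟩ := hNE (S ∪ {q} ∪ N.primeFactors)
  have hℓS' : ℓ ∉ S := fun h => hℓS (by simp [h])
  have hℓq : ℓ ≠ q := fun h => hℓS (by simp [h])
  have hℓN : ¬ ℓ ∣ N := fun h =>
    hℓS (by
      have : ℓ ∈ N.primeFactors := Nat.mem_primeFactors.2 ⟨hℓ, h, NeZero.ne N⟩
      simp [this])
  haveI : NeZero ℓ := ⟨hℓ.ne_zero⟩
  haveI : NeZero ((⟨ℓ, hℓ⟩ : Nat.Primes) : ℕ) := ⟨hℓ.ne_zero⟩
  have hT := hx ⟨ℓ, hℓ⟩ hℓS'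
  obtain ⟨c, h, hc, hh, he⟩ := kummer_hecke_E305 G N ⟨ℓ, hℓ⟩ hℓN (p ^ n)
    (pow_pos hp.pos n) y x (a ℓ) hK hT
  have hdiv := slope_core305 EG N ℓ P hq hP hℓ hℓq hℓN hV hdvr hW w hw y a₁ a₃ h₁ h₃
    (a ℓ) (p ^ n) c h hc hh he
  have hpz : Prime (p : ℤ) := Nat.prime_iff_prime_int.mp hp
  have hnd : ¬ (p : ℤ) ∣ ((ℓ : ℤ) + 1) - a ℓ := by
    intro hd
    apply hℓne
    have := (dvd_neg (a := (p : ℤ))).2 hd
    rwa [neg_sub] at this
  have hcop : IsCoprime (((p ^ n : ℕ)) : ℤ) (((ℓ : ℤ) + 1) - a ℓ) := by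
    rw [Nat.cast_pow]
    exact IsCoprime.pow_left ((Prime.coprime_iff_not_dvd hpz).2 hnd)
  exact hcop.dvd_of_dvd_mul_left hdiv

end Fermat.Agent.S59.LoSqC.H305

end
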