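import Fermat.Agent.A2.Mod.Spec
import Fermat.Agent.S37.H157.NodeNormId
import Fermat.Agent.S29.H222.ESKSpec
import Fermat.Agent.S29.H812.HeckeInputs
import Fermat.Agent.S35.H858.NormBC
import Fermat.Agent.Ribet.H376.HeckeRedInf
import Fermat.Agent.S35.G.H516.KronFrob
import Fermat.Agent.S18.H9.Res
import Fermat.Agent.S36.Eng.Spec

/-!
# S59 moonshot, cell (C) LO-SQ, leaf W-SLOPE — part 1: the Hecke norm at level `E` and the Gauss
# valuation  (helper305, OFF-MAIN)

`E ⊆ ℚ̄` an intermediate field, `P` a valuation subring of `ℚ̄`, `R = R_E = P ∩ E`,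
`F_E(N) = A2.Mod.FE E N ⊆ E((t))`, `V∞` the Gauss valuation ring (`A2.Mod.IsVinf`).

* `heckeNormE E N ℓ y = Nm_α (β y)` : the function-level Hecke operator `T_ℓ` over `E`;
* `iota_heckeNormE305` : it commutes with `E ⊆ ℚ̄` (`S35.H858.iota_normAlong_alpha`);
* `coe_heckeNormE305`  : its `t`-expansion is the formal Kronecker norm
                         (`S37.H157.node_normid` + injectivity of `coeffMap`);
* `heckeNormE_mem_vinf305` : **`y ∈ V∞ ⟹ T_ℓ y ∈ V∞`** (`ℓ` a unit of `P`);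
* `heckeNormE_unitAt305`   : `y` a unit of `V∞` ⟹ `T_ℓ y` a unit of `V∞`.
-/

set_option autoImplicit false
set_option linter.style.haveILetI false
set_option linter.unusedSectionVars false
set_option synthInstance.maxHeartbeats 400000
set_option maxHeartbeats 1600000

noncomputable section

namespace Fermat.Agent.S59.LoSqC.H305

open ModularCurve AlgebraicCurve HahnSeries
open Fermat.Agent.A2.Mod
open Fermat.Agent.A2.T1.H669 (iota)

variable (E : IntermediateField ℚ Qb) (N ℓ : ℕ) [NeZero N] [NeZero ℓ]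

/-- **The function-level Hecke operator over `E`**: `Nm_α (β y)`. -/
def heckeNormE (y : FE E N) : FE E N :=
  Fermat.Agent.S29.H395.normAlong (heckeAlphaBar E N ℓ) (heckeBetaBar E N ℓ y)

/-- The Hecke norm commutes with `E ⊆ ℚ̄`. -/
theorem iota_heckeNormE305 (y : FE E N) :
    iota E (modularFunctionFieldFull N) (heckeNormE E N ℓ y) =
      Fermat.Agent.S29.H222.heckeNorm N ℓ (iota E (modularFunctionFieldFull N) y) := by
  unfold heckeNormE
  rw [Fermat.Agent.S35.H858.iota_normAlong_alpha E N ℓ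
    (Fermat.Agent.S29.H812.finiteAlong_heckeAlphaBar N ℓ), Fermat.Agent.S35.H858.iota_heckeBetaBar]
  rfl

/-- The `t`-expansion of the Hecke norm over `E` is the formal Kronecker norm. -/
theorem coe_heckeNormE305 (hℓ : ℓ.Prime) (hℓN : ¬ ℓ ∣ N) (y : FE E N) :
    ((heckeNormE E N ℓ y : FE E N) : LaurentSeries E) =
      Fermat.Agent.S37.H400.kronNorm ℓ (y : LaurentSeries E) := by
  have h1 := congrArg Subtype.val (iota_heckeNormE305 E N ℓ y)
  have h2 := Fermat.Agent.S37.H157.node_normid N ℓ hℓ hℓN (iota E _ y)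
  apply Fermat.Agent.S18.H602.coeffMap_injective (algebraMap E Qb) (algebraMap E Qb).injective
  rw [Fermat.Agent.S37.H400.coeffMap_kronNorm]
  exact h1.trans h2

/-- The Kronecker norm preserves the function field over `E`. -/
theorem kronNorm_mem_FE305 (hℓ : ℓ.Prime) (hℓN : ¬ ℓ ∣ N) {z : LaurentSeries E}
    (hz : z ∈ FE E N) : Fermat.Agent.S37.H400.kronNorm ℓ z ∈ FE E N := by
  have := coe_heckeNormE305 E N ℓ hℓ hℓN ⟨z, hz⟩
  rw [← this]
  exact (heckeNormE E N ℓ ⟨z, hz⟩).2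

theorem heckeNormE_mul305 (y z : FE E N) :
    heckeNormE E N ℓ (y * z) = heckeNormE E N ℓ y * heckeNormE E N ℓ z := by
  unfold heckeNormE Fermat.Agent.S29.H395.normAlong
  rw [map_mul, map_mul]

theorem heckeNormE_one305 : heckeNormE E N ℓ (1 : FE E N) = 1 := by
  unfold heckeNormE Fermat.Agent.S29.H395.normAlong
  rw [map_one, map_one]

theorem heckeNormE_ne_zero305 {y : FE E N} (hy : y ≠ 0) : heckeNormE E N ℓ y ≠ 0 := by
  intro h
  have h1 := iota_heckeNormE305 E N ℓ y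
  rw [h, map_zero] at h1
  have h2 : iota E (modularFunctionFieldFull N) y ≠ 0 :=
    Fermat.Agent.A2.T1.H669.iota_ne_zero E _ hy
  have h3 : Fermat.Agent.S29.H222.heckeNorm N ℓ (iota E (modularFunctionFieldFull N) y) ≠ 0 := by
    unfold Fermat.Agent.S29.H222.heckeNorm
    exact Fermat.Agent.S29.H395.normAlong_ne_zero _
      (Fermat.Agent.S29.H812.finiteAlong_heckeAlphaBar N ℓ)
      ((map_ne_zero_iff _ (heckeBetaBar Qb N ℓ).injective).2 h2)
  exact h3 h1.symm

/-! ## The Kronecker norm does not vanish -/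

/-- Over a field in which `ℓ ≠ 0`, the Kronecker norm of a nonzero series is nonzero. -/
theorem kronNorm_ne_zero_field305 {k : Type*} [Field k] (hℓk : ((ℓ : ℕ) : k) ≠ 0)
    {h : LaurentSeries k} (h0 : h ≠ 0) : Fermat.Agent.S37.H400.kronNorm ℓ h ≠ 0 := by
  have hinj := Fermat.Agent.S18.H602.coeffMap_injective (algebraMap k (AlgebraicClosure k))
    (algebraMap k (AlgebraicClosure k)).injective
  haveI : NeZero ((ℓ : ℕ) : AlgebraicClosure k) := ⟨by
    have := (map_ne_zero (algebraMap k (AlgebraicClosure k))).2 hℓk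
    rwa [map_natCast] at this⟩
  obtain ⟨ζ, hζ⟩ := HasEnoughRootsOfUnity.exists_primitiveRoot (AlgebraicClosure k) ℓ
  intro hz
  have h1 : coeffMap (algebraMap k (AlgebraicClosure k)) h ≠ 0 := by
    intro e
    exact h0 (hinj (by rw [e, map_zero]))
  apply Fermat.Agent.Ribet.H376.kronNorm_ne_zero ℓ hζ h1
  rw [← Fermat.Agent.S37.H400.coeffMap_kronNorm, hz, map_zero]

/-! ## Stability of the Gauss valuation ring -/

variable (P : ValuationSubring Qb)

/-- **`T_ℓ` preserves the Gauss valuation ring `V∞`** (any level `N`, `ℓ ∤ N`, `ℓ` different from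
the residue characteristic `q`). -/
theorem heckeNormE_mem_vinf305 {q : ℕ} (hq : q.Prime) (hP : P.LiesOverPrime q)
    (hℓ : ℓ.Prime) (hℓq : ℓ ≠ q) (hℓN : ¬ ℓ ∣ N)
    {V : ValuationSubring (FE E N)} (hV : IsVinf P E N V) {y : FE E N} (hy : y ∈ V) :
    heckeNormE E N ℓ y ∈ V := by
  rw [hV] at hy ⊢
  obtain ⟨U₁, U₂, h2, hm, he⟩ := hy
  have hℓk : ((ℓ : ℕ) : IsLocalRing.ResidueField (RE P E)) ≠ 0 :=
    Fermat.Agent.S18.H9.resChar E (RE P E) q ℓ hq hℓ
      (Fermat.Agent.S35.G.H516.natCast_mem_nonunits_RE P E hP) hℓq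
  have hred : Fermat.Agent.A2.H708.red (RE P E) (Fermat.Agent.S37.H400.kronNorm ℓ U₂) =
      Fermat.Agent.S37.H400.kronNorm ℓ (Fermat.Agent.A2.H708.red (RE P E) U₂) :=
    Fermat.Agent.S37.H400.coeffMap_kronNorm _ ℓ U₂
  have hincl : ∀ U : LaurentSeries (RE P E),
      Fermat.Agent.A2.H708.incl (RE P E) (Fermat.Agent.S37.H400.kronNorm ℓ U) =
        Fermat.Agent.S37.H400.kronNorm ℓ (Fermat.Agent.A2.H708.incl (RE P E) U) :=
    fun U => Fermat.Agent.S37.H400.coeffMap_kronNorm _ ℓ U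
  refine ⟨Fermat.Agent.S37.H400.kronNorm ℓ U₁, Fermat.Agent.S37.H400.kronNorm ℓ U₂, ?_, ?_, ?_⟩
  · rw [hred]
    exact kronNorm_ne_zero_field305 ℓ hℓk h2
  · rw [hincl]
    exact kronNorm_mem_FE305 E N ℓ hℓ hℓN hm
  · rw [coe_heckeNormE305 E N ℓ hℓ hℓN, hincl, hincl,
      ← Fermat.Agent.S37.H400.kronNorm_mul, he]

/-! ## Units and orders -/

theorem heckeNormE_zero305 : heckeNormE E N ℓ (0 : FE E N) = 0 := by
  by_contra h
  have h1 := iota_heckeNormE305 E N ℓ (0 : FE E N)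
  rw [map_zero] at h1
  have h2 : Fermat.Agent.S29.H222.heckeNorm N ℓ (0 : modularFunctionFieldBar N) = 0 := by
    unfold Fermat.Agent.S29.H222.heckeNorm
    rw [map_zero]
    letI := algebraAlong (heckeAlphaBar Qb N ℓ)
    haveI : Module.Finite (modularFunctionFieldBar N) (modularFunctionFieldBar (N * ℓ)) :=
      Fermat.Agent.S29.H812.finiteAlong_heckeAlphaBar N ℓ
    exact Algebra.norm_zero
  rw [h2] at h1
  exact h ((map_eq_zero_iff _ (Fermat.Agent.A2.T1.H669.iota_injective E _)).1 h1)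

/-- `T_ℓ` as a monoid-with-zero homomorphism of the function field over `E`. -/
def heckeNormEHom : FE E N →*₀ FE E N where
  toFun := heckeNormE E N ℓ
  map_zero' := heckeNormE_zero305 E N ℓ
  map_one' := heckeNormE_one305 E N ℓ
  map_mul' := heckeNormE_mul305 E N ℓ

theorem heckeNormEHom_apply (y : FE E N) : heckeNormEHom E N ℓ y = heckeNormE E N ℓ y := rfl

/-- `T_ℓ` of a constant `c` is `c ^ (ℓ + 1)`. -/
theorem heckeNormE_const305 (hℓ : ℓ.Prime) (hℓN : ¬ ℓ ∣ N) (c : E) :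
    heckeNormE E N ℓ (algebraMap E (FE E N) c) = algebraMap E (FE E N) (c ^ (ℓ + 1)) := by
  apply Subtype.ext
  rw [coe_heckeNormE305 E N ℓ hℓ hℓN]
  show Fermat.Agent.S37.H400.kronNorm ℓ (algebraMap E (LaurentSeries E) c) =
    algebraMap E (LaurentSeries E) (c ^ (ℓ + 1))
  rw [Fermat.Agent.S18.H602.algebraMap_eq_C, Fermat.Agent.S18.H602.algebraMap_eq_C,
    Fermat.Agent.Ribet.H376.kronNorm_C]

open Fermat.Agent.S36.Eng (UnitAt)

/-- `T_ℓ` preserves the units of `V∞`. -/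
theorem heckeNormE_unitAt305 {q : ℕ} (hq : q.Prime) (hP : P.LiesOverPrime q)
    (hℓ : ℓ.Prime) (hℓq : ℓ ≠ q) (hℓN : ¬ ℓ ∣ N)
    {V : ValuationSubring (FE E N)} (hV : IsVinf P E N V) {y : FE E N} (hy : UnitAt V y) :
    UnitAt V (heckeNormE E N ℓ y) := by
  obtain ⟨h0, h1, h2⟩ := hy
  refine ⟨heckeNormE_ne_zero305 E N ℓ h0, heckeNormE_mem_vinf305 E N ℓ P hq hP hℓ hℓq hℓN hV h1, ?_⟩
  have h3 := heckeNormE_mem_vinf305 E N ℓ P hq hP hℓ hℓq hℓN hV h2
  rwa [← heckeNormEHom_apply, map_inv₀] at h3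

/-- **Orders along `V∞` are multiplied by `ℓ + 1`.** -/
theorem heckeNormE_order305 {q : ℕ} (hq : q.Prime) (hP : P.LiesOverPrime q)
    (hℓ : ℓ.Prime) (hℓq : ℓ ≠ q) (hℓN : ¬ ℓ ∣ N)
    {V : ValuationSubring (FE E N)} (hV : IsVinf P E N V) (w : E) (y : FE E N) (a : ℤ)
    (hy : UnitAt V (y * (algebraMap E (FE E N) w ^ a)⁻¹)) :
    UnitAt V (heckeNormE E N ℓ y * (algebraMap E (FE E N) w ^ (((ℓ : ℤ) + 1) * a))⁻¹) := by
  have h1 := heckeNormE_unitAt305 E N ℓ P hq hP hℓ hℓq hℓN hV hy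
  rw [← heckeNormEHom_apply, map_mul, map_inv₀, map_zpow₀, heckeNormEHom_apply,
    heckeNormEHom_apply, heckeNormE_const305 E N ℓ hℓ hℓN, map_pow, ← zpow_natCast,
    ← zpow_mul] at h1
  have e : ((ℓ + 1 : ℕ) : ℤ) * a = ((ℓ : ℤ) + 1) * a := by push_cast; ring
  rwa [e] at h1

end Fermat.Agent.S59.LoSqC.H305

end
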