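import Fermat.Agent.S59.LoSqC.Spec
import Fermat.Agent.S59.LoSqC.H305.SlopeJ
import Fermat.Agent.S36.Mod3.H370.Val
import Fermat.Agent.S36.Eng.Two

/-!
# S59 moonshot, cell (C) LO-SQ, leaf **W-SLOPE** = `LoSqC.SlopeJStatement`, VERBATIM
# (helper305, OFF-MAIN)

`slopeJ305 : Fermat.Agent.S59.LoSqC.SlopeJStatement` (frozen in `S59/LoSqC/Spec.lean`,
origin/helper885@bf319b02f), UNCONDITIONAL: from `slope_zero305` (`SlopeJ.lean`), the MOD3 leaf
VAL on main (`Mod3.H370.leafVal`: `V₁`, `V₃` are DVRs with uniformiser `w`) and UNR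
(`Eng.inertiaFieldStatement`).  The hypotheses `p ≠ 2`, `p ∣ q + 1`, `q ≠ 2`, `p • x = 0` are not
used.
-/

set_option autoImplicit false
set_option linter.style.haveILetI false
set_option linter.unusedSectionVars false
set_option linter.unusedVariables false
set_option synthInstance.maxHeartbeats 400000
set_option maxHeartbeats 1600000

noncomputable section

namespace Fermat.Agent.S59.LoSqC.H305

open ModularCurve AlgebraicCurve
open Fermat.Agent.S36 Fermat.Agent.S36.Eng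
open Fermat.Agent.Ribet.H944.Wall

/-- **W-SLOPE** (`LoSqC.SlopeJStatement`, verbatim). -/
theorem slopeJ305 : Fermat.Agent.S59.LoSqC.SlopeJStatement := by
  intro M q p _ _ _ hq hqM hneat hq2 hp hp2 hpq hpq1 A hA x hx S a hNE hEig w hw
    V₁' V₂' V₁ V₂ V₃ W' W hObj f hf
  have hstd : Mod3.Std A (inertiaFldC A) M q w :=
    ⟨hq, hqM, hA, Eng.inertiaFieldStatement q hq A hA, hneat, hw⟩
  have hVal := Mod3.H370.leafVal A (inertiaFldC A) M q w hstd V₁' V₂' V₁ V₂ V₃ W' W hObj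
  haveI := hVal.dvr₁
  haveI := hVal.dvr₃
  obtain ⟨hf0, D, hD, hord⟩ := hf
  obtain ⟨a₁, h₁⟩ := H586.exists_isOrd_of_unifAt V₁ hVal.unif₁ f hf0
  obtain ⟨a₃, h₃⟩ := H586.exists_isOrd_of_unifAt V₃ hVal.unif₃ f hf0
  refine ⟨a₁, a₃, (H586.isOrd_iff_unitAt hVal.unif₁.1 f a₁).1 h₁,
    (H586.isOrd_iff_unitAt hVal.unif₃.1 f a₃).1 h₃, ?_⟩
  have hK : Fermat.Agent.Ribet.H884.IsKummerGen (M * q * q) (p ^ 1)
      (A2.T1.H669.iota (inertiaFldC A) (modularFunctionFieldFull (M * q * q)) f) x := by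
    refine ⟨A2.T1.H669.iota_ne_zero _ _ hf0, D, hD, fun v => ?_⟩
    rw [pow_one]
    exact hord v
  have h₃' : H586.IsOrd (V₁.comap (W : A2.Mod.FE (inertiaFldC A) (M * q * q) →+*
      A2.Mod.FE (inertiaFldC A) (M * q * q)))
      (algebraMap (inertiaFldC A) (A2.Mod.FE (inertiaFldC A) (M * q * q)) (w : inertiaFldC A))
      f a₃ := by
    rw [← hObj.vzero]
    exact h₃
  have key := slope_zero305 (A.inertiaSubgroupIn ℚ) (M * q * q) A hq hA hp 1 hObj.vinf
    hVal.dvr₁ hObj.fricke (w : inertiaFldC A) hVal.unif₁ S a hNE x hEig f hK a₁ a₃ h₁ h₃'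
  simpa using key

end Fermat.Agent.S59.LoSqC.H305

end
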